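import Fermat.Agent.S33.Cover.Main

/-!
# S33 / Cover : uniqueness of the gluing.

`IsPreNodal.node_eq_of_glued` : in a nodal reduction two branches are glued (by all the regular functions) only if they are the branches of the same node.
`SplitCover.partner_unique` : the special case used by block GALP.
-/

set_option autoImplicit false
set_option linter.unusedSectionVars false

noncomputable section

namespace Fermat.Agent.S33.Cover

open AlgebraicCurve Fermat.Agent.Lib.RR Fermat.Agent.GAL.RED Fermat.Agent.DR.Abs Fermat.Agent.S36.Norm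
  Fermat.Agent.S36.Abs

variable {K F k : Type*} [Field K] [Field F] [Algebra K F]
  [Field k] {ι : Type*} {Fb : ι → Type*} [∀ i, Field (Fb i)] [∀ i, Algebra k (Fb i)] {Nd : Type*}
  [IsFF K F] [IsAlgClosed K] [∀ i, IsFF k (Fb i)] [IsAlgClosed k] [Fintype ι] [Fintype Nd]

/-- the node of a branch. -/
def nodeOf : Nd ⊕ Nd → Nd := Sum.elim id id

/-- There is a regular function with the value `1` at the two branches of the node `e` and `0` at the branches of the other nodes. -/
theorem IsPreNodal.exists_indicator {T : MultiRed K F k Fb} {x : F} {N : NodeData k Fb Nd} {a₀ : ℕ}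
    (h : IsPreNodal T x N a₀) (e : Nd) :
    ∃ y, IsReg T x y ∧ ∀ s : Nd ⊕ Nd, bval T (N.branch s).1 (N.branch s).2 y =
      (open Classical in if nodeOf s = e then 1 else 0) := by
  classical
  have hN : N.Adapted (T.red x) := ⟨h.inj, h.nonconst, h.unit₁, h.unit₂⟩
  obtain ⟨a₂, h₂⟩ := exists_bounded_values (T.red x) h.nonconst (Glued_brSet N)
    (fun i P hP => Glued_ord_of_mem_brSet hN i P hP)
  let val : ∀ i, Place k (Fb i) → k := fun i P =>
    if ∃ s : Nd ⊕ Nd, N.branch s = ⟨i, P⟩ ∧ nodeOf s = e then 1 else 0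
  have hval : ∀ s : Nd ⊕ Nd, val (N.branch s).1 (N.branch s).2 = if nodeOf s = e then 1 else 0 := by
    intro s
    by_cases hs : nodeOf s = e
    · rw [if_pos hs]
      exact if_pos ⟨s, rfl, hs⟩
    · rw [if_neg hs]
      refine if_neg ?_
      rintro ⟨s', hs', he⟩
      have : s' = s := h.inj hs'
      exact hs (this ▸ he)
  obtain ⟨z, hzB, hz⟩ := h₂ (a₀ + a₂) 0 (by omega) val
  have hzs : ∀ s : Nd ⊕ Nd, ev (N.branch s).2 (z (N.branch s).1) = if nodeOf s = e then 1 else 0 := by
    intro s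
    rw [← hval s]
    exact hz _ _ ((Glued_mem_brSet N _ _).2 ⟨s, rfl⟩)
  have hgl : N.Glued 1 z := by
    intro e'
    have h1 := hzs (Sum.inl e')
    have h2 := hzs (Sum.inr e')
    have h1' : ev (N.p₁ e') (z (N.i₁ e')) = if e' = e then 1 else 0 := h1
    have h2' : ev (N.p₂ e') (z (N.i₂ e')) = if e' = e then 1 else 0 := h2
    rw [h1', h2']
    simp
  obtain ⟨y, hyL, hyO, hy⟩ := (h.mem_iff (a₀ + a₂) 0 (by omega) z).2 ⟨hzB, hgl⟩
  rw [bipole_zero_right] at hyL
  refine ⟨y, ⟨hyO, _, hyL⟩, fun s => ?_⟩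
  rw [← hzs s, ← hy]
  rfl

/-- **Uniqueness of the gluing.** -/
theorem IsPreNodal.node_eq_of_glued {T : MultiRed K F k Fb} {x : F} {N : NodeData k Fb Nd} {a₀ : ℕ}
    (h : IsPreNodal T x N a₀) {s t : Nd ⊕ Nd}
    (hst : ∀ y, IsReg T x y →
      bval T (N.branch s).1 (N.branch s).2 y = bval T (N.branch t).1 (N.branch t).2 y) :
    nodeOf s = nodeOf t := by
  classical
  obtain ⟨y, hy, hv⟩ := IsPreNodal.exists_indicator h (nodeOf s)
  have h1 := hst y hy
  rw [hv s, hv t, if_pos rfl] at h1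
  by_contra hne
  rw [if_neg (fun h' => hne h'.symm)] at h1
  exact one_ne_zero h1

variable {E : Type*} [Field E] [Algebra K E] [Algebra F E] [IsScalarTower K F E] [IsFF K E]
  [FiniteDimensional F E] [IsGalois F E]
  {T : MultiRed K F k Fb} {T' : MultiRed K E k (fun j : ι × (E ≃ₐ[F] E) => Fb j.1)}

/-- **Uniqueness of the partner** (for block GALP). -/
theorem partner_unique {x' : E} {N : NodeData k Fb Nd} {b : Nd → (E ≃ₐ[F] E)} {a₁ : ℕ}
    (h' : IsPreNodal T' x' (coverNodes N b) a₁) {e : Nd} {g g' : E ≃ₐ[F] E}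
    (hgl : ∀ y, IsReg T' x' y →
      bval T' (N.i₁ e, g) (N.p₁ e) y = bval T' (N.i₂ e, g') (N.p₂ e) y) : g' = g * b e := by
  have h1 := IsPreNodal.node_eq_of_glued h' (s := Sum.inl (e, g)) (t := Sum.inr (e, g' * (b e)⁻¹))
    (fun y hy => by
      have h2 := hgl y hy
      show bval T' (N.i₁ e, g) (N.p₁ e) y = bval T' (N.i₂ e, g' * (b e)⁻¹ * b e) (N.p₂ e) y
      rw [inv_mul_cancel_right]
      exact h2)
  have h3 : (e, g) = (e, g' * (b e)⁻¹) := h1
  have h4 : g = g' * (b e)⁻¹ := (Prod.ext_iff.1 h3).2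
  rw [h4, inv_mul_cancel_right]

end Fermat.Agent.S33.Cover
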