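import Fermat.Agent.S33.Cover.Reg

/-!
# S33 / Cover : going down by the norm.

`SplitCover.exists_partner` : for every node `e` of `F` the branch `(p₁ e, (i₁ e, 1))` of `E` is glued to one of the branches `(p₂ e, (i₂ e, b))`.
Otherwise (`exists_separating_reg`) there is a regular function `y` on `E` with the value `0` at the first branch and `1` at all the branches `(p₂ e, (i₂ e, b))`;
its norm is a regular function on `F` with the value `0` at `p₁ e` and `1` at `p₂ e`.
-/

set_option autoImplicit false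
set_option linter.unusedSectionVars false

noncomputable section

namespace Fermat.Agent.S33.Cover

open AlgebraicCurve Fermat.Agent.Lib.RR Fermat.Agent.GAL.RED Fermat.Agent.DR.Abs Fermat.Agent.S36.Norm
  Fermat.Agent.S36.Abs

variable {K F E k : Type*} [Field K] [Field F] [Field E] [Algebra K F] [Algebra K E] [Algebra F E]
  [IsScalarTower K F E]
  [Field k] {ι : Type*} {Fb : ι → Type*} [∀ i, Field (Fb i)] [∀ i, Algebra k (Fb i)] {Nd : Type*}
  [IsFF K F] [IsFF K E] [IsAlgClosed K] [∀ i, IsFF k (Fb i)] [IsAlgClosed k] [Fintype ι]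
  [FiniteDimensional F E] [IsGalois F E]
  {T : MultiRed K F k Fb} {T' : MultiRed K E k (fun j : ι × (E ≃ₐ[F] E) => Fb j.1)}

/-- a nodal reduction is good. -/
theorem good_of_isPreNodal [Fintype Nd] {x : F} {N : NodeData k Fb Nd} {a₀ : ℕ}
    (h : IsPreNodal T x N a₀) : Good T x :=
  ⟨h.sep, h.nonconst, IsPreNodal.degree_eq h⟩

/-- regular functions are glued at the nodes of a nodal reduction. -/
theorem bval_eq_of_isPreNodal {x : F} {N : NodeData k Fb Nd} {a₀ : ℕ}
    (h : IsPreNodal T x N a₀) {y : F} (hy : IsReg T x y) (e : Nd) :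
    bval T (N.i₁ e) (N.p₁ e) y = bval T (N.i₂ e) (N.p₂ e) y := by
  obtain ⟨hyO, a, ha⟩ := hy
  rw [← bipole_zero_right] at ha
  have h3 : y ∈ riemannRochSpace (bipole K x (max a a₀) 0) :=
    DR.Abs.L_mono (bipole_mono x (le_max_left a a₀) le_rfl) ha
  have := ((h.mem_iff (max a a₀) 0 (by simp) (T.red y)).1 ⟨y, h3, hyO, rfl⟩).2 e
  simpa [bval] using this

theorem SplitCover.good (h : SplitCover T T') (hS : T'.Sep) {x : F} (hG : Good T x)
    (hdeg : Divisor.degree (poleDiv (K := K) (algebraMap F E x)) =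
      Fintype.card (E ≃ₐ[F] E) * Divisor.degree (poleDiv (K := K) x)) :
    Good T' (algebraMap F E x) where
  sep := hS
  nonconst := fun j => by
    rw [h.red_algebraMap]
    exact hG.nonconst j.1
  deg := by
    rw [hdeg, hG.deg, Fintype.sum_prod_type, Finset.mul_sum]
    refine Finset.sum_congr rfl fun i _ => ?_
    have h1 : ∀ g : E ≃ₐ[F] E, Divisor.degree (poleDiv (K := k)
        ((T'.R (i, g)).red (algebraMap F E x))) =
        Divisor.degree (poleDiv (K := k) ((T.R i).red x)) := fun g => by rw [h.red_algebraMap]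
    rw [Finset.sum_congr rfl (fun g _ => h1 g), Finset.sum_const, Finset.card_univ, nsmul_eq_mul]

theorem SplitCover.map_mem_O (h : SplitCover T T') {y : E} (hy : y ∈ T'.O) (σ : E ≃ₐ[F] E) :
    σ y ∈ T'.O := by
  rintro ⟨i, g⟩
  have := (h.map_mem_iff i (σ⁻¹ * g) σ y).2 (hy (i, σ⁻¹ * g))
  rwa [mul_inv_cancel_left] at this

/-- **(G1)** the Galois group preserves the regular functions. -/
theorem SplitCover.isReg_map (h : SplitCover T T') {x : F} {y : E}
    (hy : IsReg T' (algebraMap F E x) y) (σ : E ≃ₐ[F] E) : IsReg T' (algebraMap F E x) (σ y) := by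
  rw [isReg_iff] at *
  refine ⟨h.map_mem_O hy.1 σ, fun P hP => ?_⟩
  let τ : E ≃ₐ[K] E := (σ.restrictScalars K).symm
  have h1 : ∀ u : E, (placeMap τ P).ord (τ u) = P.ord u := placeMap_ord τ P
  have hτ : τ (σ y) = y := σ.symm_apply_apply y
  have hx : τ (algebraMap F E x) = algebraMap F E x := σ.symm.commutes x
  rw [← h1, hτ]
  apply hy.2
  rw [← hx, h1]
  exact hP

/-- **(G2)** the norm of a regular function is regular. -/
theorem SplitCover.isReg_norm (h : SplitCover T T') {x : F} {y : E}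
    (hy : IsReg T' (algebraMap F E x) y) : IsReg T x (Algebra.norm F y) := by
  refine ⟨fun i => ?_, norm_mem_L x hy.2⟩
  rw [← h.mem_iff i 1, Algebra.norm_eq_prod_automorphisms]
  exact Subring.prod_mem T'.O (fun σ _ => h.map_mem_O hy.1 σ) (i, 1)

theorem SplitCover.bval_map (h : SplitCover T T') (i : ι) (g σ : E ≃ₐ[F] E) (P : Place k (Fb i))
    (y : E) : bval T' (i, σ * g) P (σ y) = bval T' (i, g) P y := by
  unfold bval
  rw [h.red_map]

/-- **(G3)** the values of the norm. -/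
theorem SplitCover.bval_norm (h : SplitCover T T') {x : F} (hG' : Good T' (algebraMap F E x)) {y : E}
    (hy : IsReg T' (algebraMap F E x) y) (i : ι) (P : Place k (Fb i))
    (hP : 0 ≤ P.ord ((T.R i).red x)) :
    bval T i P (Algebra.norm F y) = ∏ σ : E ≃ₐ[F] E, bval T' (i, σ) P y := by
  have hP' : 0 ≤ Place.ord (K := k) (F := Fb i) P ((T'.R (i, 1)).red (algebraMap F E x)) := by
    rw [h.red_algebraMap]
    exact hP
  have h1 : bval T i P (Algebra.norm F y) = bval T' (i, 1) P (algebraMap F E (Algebra.norm F y)) := by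
    unfold bval
    rw [h.red_algebraMap]
  rw [h1, Algebra.norm_eq_prod_automorphisms,
    bval_prod hG' _ _ (fun σ _ => h.isReg_map hy σ) (i, 1) P hP']
  refine Fintype.prod_equiv (Equiv.inv _) _ _ fun σ => ?_
  have := h.bval_map i σ⁻¹ σ P y
  rw [mul_inv_cancel] at this
  exact this

/-- **(G4) Going down.** -/
theorem SplitCover.exists_partner (h : SplitCover T T') {x : F} {N : NodeData k Fb Nd} {a₀ : ℕ}
    (hF : IsPreNodal T x N a₀) (hG' : Good T' (algebraMap F E x)) (e : Nd) :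
    ∃ b : E ≃ₐ[F] E, ∀ y, IsReg T' (algebraMap F E x) y →
      bval T' (N.i₁ e, 1) (N.p₁ e) y = bval T' (N.i₂ e, b) (N.p₂ e) y := by
  by_contra hcon
  push Not at hcon
  have hP₁ : 0 ≤ (N.p₁ e).ord ((T.R (N.i₁ e)).red x) := (hF.unit₁ e).ge
  have hP₂ : 0 ≤ (N.p₂ e).ord ((T.R (N.i₂ e)).red x) := (hF.unit₂ e).ge
  obtain ⟨y, hy, hy0, hy1⟩ := exists_separating_reg hG' (N.i₁ e, 1) (N.p₁ e)
    (by rw [h.red_algebraMap]; exact hP₁)
    (fun b : E ≃ₐ[F] E => (N.i₂ e, b)) (fun _ => N.p₂ e)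
    (fun b => by rw [h.red_algebraMap]; exact hP₂) hcon
  have h1 := bval_eq_of_isPreNodal hF (h.isReg_norm hy) e
  rw [h.bval_norm hG' hy _ _ hP₁, h.bval_norm hG' hy _ _ hP₂,
    Finset.prod_eq_zero (Finset.mem_univ 1) hy0, Finset.prod_congr rfl (fun b _ => hy1 b)] at h1
  simp at h1

/-- **(G5)** by equivariance. -/
theorem SplitCover.partner_smul (h : SplitCover T T') {x : F} {N : NodeData k Fb Nd} {e : Nd}
    {b : E ≃ₐ[F] E} (hb : ∀ y, IsReg T' (algebraMap F E x) y →
      bval T' (N.i₁ e, 1) (N.p₁ e) y = bval T' (N.i₂ e, b) (N.p₂ e) y) (g : E ≃ₐ[F] E) {y : E}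
    (hy : IsReg T' (algebraMap F E x) y) :
    bval T' (N.i₁ e, g) (N.p₁ e) y = bval T' (N.i₂ e, g * b) (N.p₂ e) y := by
  have h1 := h.bval_map (N.i₁ e) 1 g (N.p₁ e) (g⁻¹ y)
  have h2 := h.bval_map (N.i₂ e) b g (N.p₂ e) (g⁻¹ y)
  have h3 : g (g⁻¹ y) = y := g.apply_symm_apply y
  rw [h3, mul_one] at h1
  rw [h3] at h2
  rw [h1, h2]
  exact hb _ (h.isReg_map hy g⁻¹)

end Fermat.Agent.S33.Cover
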