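import Fermat.Agent.S36.Abs.Genus
import Fermat.Agent.S36.Norm.Tools.Symm

/-!
# S33 / Cover : the cover theorem (block COVER of the S33 plan).  Definitions = contract with block VAL.

`K` algebraically closed with a valuation subring, residue field `k`; `F / K` a function field with a family of reductions
`T : MultiRed K F k Fb` (index set `ι`) which is NODAL (`IsPreNodal T x N a₀`).
`E / F` a finite Galois extension, `G = E ≃ₐ[F] E`, such that every valuation of `T` SPLITS COMPLETELY in `E`:
the valuations of `E` above `T.R i` are indexed by `G`, with the same residue field `Fb i`.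

* `SplitCover T T'` : `T' : MultiRed K E k (fun j : ι × G => Fb j.1)` restricts to `T` and is `G`-equivariant:
  `red_{(i, h g)} (h y) = red_{(i, g)} y`.   THIS IS THE OUTPUT CONTRACT OF BLOCK VAL (together with `T'.Sep`,
  `deg_E (x)_∞ = |G| deg_F (x)_∞` and `g_E - 1 = |G| (g_F - 1)`).
* `coverNodes N b` (`b : Nd → G`) : the nodes `(e, g)`, joining the point `p₁ e` of the component `(i₁ e, g)` to the point `p₂ e`
  of the component `(i₂ e, g * b e)`.
* `Reg T x` : the ring of the functions which are integral for all the valuations of `T` and regular outside the poles of `x`.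
* `bval T j P y` : the value of (the reduction on the component `j` of) `y` at the point `P`.

MAIN THEOREM (`Main.lean`): `∃ b a₁, IsPreNodal T' x (coverNodes N b) a₁`; no hypothesis on the residue characteristic.
-/

set_option autoImplicit false

noncomputable section

namespace Fermat.Agent.S33.Cover

open AlgebraicCurve Fermat.Agent.Lib.RR Fermat.Agent.GAL.RED Fermat.Agent.DR.Abs

variable {K F E k : Type*} [Field K] [Field F] [Field E] [Algebra K F] [Algebra K E] [Algebra F E]
  [Field k] {ι : Type*} {Fb : ι → Type*} [∀ i, Field (Fb i)] [∀ i, Algebra k (Fb i)] {Nd : Type*}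

/-- `T'` is a family of reductions of `E`, indexed by `ι × Gal(E/F)`, which restricts to `T` and is equivariant. -/
structure SplitCover (T : MultiRed K F k Fb)
    (T' : MultiRed K E k (fun j : ι × (E ≃ₐ[F] E) => Fb j.1)) : Prop where
  mem_iff : ∀ (i : ι) (g : E ≃ₐ[F] E) (y : F), algebraMap F E y ∈ (T'.R (i, g)).O ↔ y ∈ (T.R i).O
  red_algebraMap : ∀ (i : ι) (g : E ≃ₐ[F] E) (y : F),
    (T'.R (i, g)).red (algebraMap F E y) = (T.R i).red y
  map_mem_iff : ∀ (i : ι) (g h : E ≃ₐ[F] E) (y : E),
    h y ∈ (T'.R (i, h * g)).O ↔ y ∈ (T'.R (i, g)).O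
  red_map : ∀ (i : ι) (g h : E ≃ₐ[F] E) (y : E),
    (T'.R (i, h * g)).red (h y) = (T'.R (i, g)).red y

/-- The nodes of the cover. -/
def coverNodes {G : Type*} [Mul G] (N : NodeData k Fb Nd) (b : Nd → G) :
    NodeData k (fun j : ι × G => Fb j.1) (Nd × G) where
  i₁ := fun e => (N.i₁ e.1, e.2)
  i₂ := fun e => (N.i₂ e.1, e.2 * b e.1)
  p₁ := fun e => N.p₁ e.1
  p₂ := fun e => N.p₂ e.1

/-- `y` is integral for all the valuations and regular outside the poles of `x`. -/
def IsReg [HasPrincipalDivisors K F] (T : MultiRed K F k Fb) (x y : F) : Prop :=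
  y ∈ T.O ∧ ∃ a : ℕ, y ∈ riemannRochSpace (a • poleDiv (K := K) x)

/-- The value of `y` at the point `P` of the component `j`. -/
def bval (T : MultiRed K F k Fb) (j : ι) (P : Place k (Fb j)) (y : F) : k :=
  ev P ((T.R j).red y)

end Fermat.Agent.S33.Cover
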