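import Fermat.Agent.S33.Cover.GoingDown

/-!
# S33 / Cover : THE COVER THEOREM.

`SplitCover.exists_isPreNodal` : a Galois cover `E / F` (group `G`) of a nodal reduction in which all the valuations split completely, with
`g_E - 1 = |G| (g_F - 1)`, is again nodal, with the nodes `coverNodes N b` (`G` acts freely on the nodes).  No hypothesis on the residue characteristic.

`IsPreNodal.node_eq_of_glued` : in a nodal reduction two branches are glued (by all the regular functions) only if they are the branches of the same node.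
`SplitCover.partner_unique` : the special case used by block GALP.
-/

set_option autoImplicit false
set_option linter.unusedSectionVars false

noncomputable section

namespace Fermat.Agent.S33.Cover

open AlgebraicCurve Fermat.Agent.Lib.RR Fermat.Agent.GAL.RED Fermat.Agent.DR.Abs Fermat.Agent.S36.Norm
  Fermat.Agent.S36.Abs

section adapted

variable {k : Type*} [Field k] {ι : Type*} {Fb : ι → Type*} [∀ i, Field (Fb i)]
  [∀ i, Algebra k (Fb i)] {Nd : Type*} {G : Type*} [Group G]

/-- the branches of `coverNodes N b` are pairwise distinct. -/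
theorem coverNodes_branch_injective {N : NodeData k Fb Nd} (hN : Function.Injective N.branch)
    (b : Nd → G) : Function.Injective (coverNodes N b).branch := by
  let π : (Σ j : ι × G, Place k (Fb j.1)) → (Σ i, Place k (Fb i)) := fun s => ⟨s.1.1, s.2⟩
  let γ : (Σ j : ι × G, Place k (Fb j.1)) → G := fun s => s.1.2
  rintro (⟨e, g⟩ | ⟨e, g⟩) (⟨e', g'⟩ | ⟨e', g'⟩) hst
  · have h1 : N.branch (Sum.inl e) = N.branch (Sum.inl e') := congrArg π hst
    have h2 : g = g' := congrArg γ hst
    have h3 := hN h1
    simp only [Sum.inl.injEq] at h3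
    rw [h2, h3]
  · have h1 : N.branch (Sum.inl e) = N.branch (Sum.inr e') := congrArg π hst
    exact absurd (hN h1) (by simp)
  · have h1 : N.branch (Sum.inr e) = N.branch (Sum.inl e') := congrArg π hst
    exact absurd (hN h1) (by simp)
  · have h1 : N.branch (Sum.inr e) = N.branch (Sum.inr e') := congrArg π hst
    have h2 : g * b e = g' * b e' := congrArg γ hst
    have h3 := hN h1
    simp only [Sum.inr.injEq] at h3
    subst h3
    rw [mul_right_cancel h2]

theorem coverNodes_adapted {N : NodeData k Fb Nd} {xb : ∀ i, Fb i} (hN : N.Adapted xb)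
    (b : Nd → G) : (coverNodes N b).Adapted (fun j : ι × G => xb j.1) where
  inj := coverNodes_branch_injective hN.inj b
  nonconst := fun j => hN.nonconst j.1
  unit₁ := fun e => hN.unit₁ e.1
  unit₂ := fun e => hN.unit₂ e.1

end adapted

variable {K F E k : Type*} [Field K] [Field F] [Field E] [Algebra K F] [Algebra K E] [Algebra F E]
  [IsScalarTower K F E]
  [Field k] {ι : Type*} {Fb : ι → Type*} [∀ i, Field (Fb i)] [∀ i, Algebra k (Fb i)] {Nd : Type*}
  [IsFF K F] [IsFF K E] [IsAlgClosed K] [∀ i, IsFF k (Fb i)] [IsAlgClosed k] [Fintype ι]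
  [FiniteDimensional F E] [IsGalois F E] [Fintype Nd]
  {T : MultiRed K F k Fb} {T' : MultiRed K E k (fun j : ι × (E ≃ₐ[F] E) => Fb j.1)}

/-- **THE COVER THEOREM.** -/
theorem SplitCover.exists_isPreNodal (h : SplitCover T T') (hS : T'.Sep) {x : F}
    {N : NodeData k Fb Nd} {a₀ : ℕ} (hF : IsPreNodal T x N a₀)
    (hdeg : Divisor.degree (poleDiv (K := K) (algebraMap F E x)) =
      Fintype.card (E ≃ₐ[F] E) * Divisor.degree (poleDiv (K := K) x))
    (hgenus : (genusFF K E : ℤ) - 1 = Fintype.card (E ≃ₐ[F] E) * ((genusFF K F : ℤ) - 1)) :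
    ∃ (b : Nd → (E ≃ₐ[F] E)) (a₁ : ℕ), IsPreNodal T' (algebraMap F E x) (coverNodes N b) a₁ := by
  have hG' := h.good hS (good_of_isPreNodal hF) hdeg
  choose b hb using fun e => h.exists_partner hF hG' e
  refine ⟨b, ?_⟩
  have hne : Nonempty ι := hF.cart.nonempty
  have hred : T'.red (algebraMap F E x) = fun j : ι × (E ≃ₐ[F] E) => T.red x j.1 := by
    funext j
    exact h.red_algebraMap j.1 j.2 x
  have hN : (coverNodes N b).Adapted (T'.red (algebraMap F E x)) := by
    rw [hred]
    exact coverNodes_adapted ⟨hF.inj, hF.nonconst, hF.unit₁, hF.unit₂⟩ b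
  refine isPreNodal_of_genus_eq hS hN hG'.deg ?_ ?_
  · rintro y hyO hyL ⟨e, g⟩
    have := h.partner_smul (hb e) g (y := y) ⟨hyO, hyL⟩
    show ev (N.p₁ e) ((T'.R (N.i₁ e, g)).red y) = 1 * ev (N.p₂ e) ((T'.R (N.i₂ e, g * b e)).red y)
    rw [one_mul]
    exact this
  · have h1 := IsPreNodal.genus_eq hF
    rw [hgenus, ← h1, Fintype.card_prod, Fintype.sum_prod_type, mul_add, Finset.mul_sum]
    push_cast
    congr 1
    · ring
    · refine Finset.sum_congr rfl fun i _ => ?_
      show ∑ _g : E ≃ₐ[F] E, ((genusFF k (Fb i) : ℤ) - 1) = _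
      rw [Finset.sum_const, Finset.card_univ, nsmul_eq_mul]

end Fermat.Agent.S33.Cover
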