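import Fermat.Agent.S33.Cover.Defs

/-!
# S33 / Cover : the ring `Reg` of the integral functions which are regular outside the poles of `x`, and the evaluation maps `bval`.

For a family of reductions `T` with `Good T x` (independent valuations, `deg (x)_∞ = ∑ deg (x̄ᵢ)_∞`), and a point `P` of the component `j` which is not a pole
of `x̄_j`, the map `bval T j P : Reg → k` is a ring homomorphism, compatible with the reduction of constants.
-/

set_option autoImplicit false

noncomputable section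

namespace Fermat.Agent.S33.Cover

open AlgebraicCurve Fermat.Agent.Lib.RR Fermat.Agent.GAL.RED Fermat.Agent.DR.Abs Fermat.Agent.S36.Norm

variable {K F k : Type*} [Field K] [Field F] [Algebra K F]
  [Field k] {ι : Type*} {Fb : ι → Type*} [∀ i, Field (Fb i)] [∀ i, Algebra k (Fb i)]

/-- The standing hypotheses on `(T, x)`. -/
structure Good [HasPrincipalDivisors K F] [∀ i, HasPrincipalDivisors k (Fb i)] [Fintype ι]
    (T : MultiRed K F k Fb) (x : F) : Prop where
  sep : T.Sep
  nonconst : ∀ i, (T.R i).red x ∉ Set.range (algebraMap k (Fb i))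
  deg : Divisor.degree (poleDiv (K := K) x) = ∑ i, Divisor.degree (poleDiv (K := k) ((T.R i).red x))

variable [IsFF K F]

/-- (`S36.Norm.RegNorm_exists_mem_L_poleDiv_iff`.) -/
theorem isReg_iff (T : MultiRed K F k Fb) (x y : F) :
    IsReg T x y ↔ y ∈ T.O ∧ ∀ P : Place K F, 0 ≤ P.ord x → 0 ≤ P.ord y := by
  unfold IsReg
  rw [RegNorm_exists_mem_L_poleDiv_iff]

variable {T : MultiRed K F k Fb} {x : F}

/-- **(R1)** (`isReg_iff`; `T.O` is a subring; `ord_add_nonneg`-type lemmas for `Place K F`: `DR.Abs.ord_add_nonneg`, `ord_mul_nonneg` need `IsAlgClosed K`,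
which is available in all the applications: add it to the statement if convenient... it IS in the variables below.) -/
theorem IsReg.add [IsAlgClosed K] {y z : F} (hy : IsReg T x y) (hz : IsReg T x z) : IsReg T x (y + z) := by
  rw [isReg_iff] at *
  exact ⟨T.O.add_mem hy.1 hz.1, fun P hP => ord_add_nonneg P (hy.2 P hP) (hz.2 P hP)⟩

theorem IsReg.mul [IsAlgClosed K] {y z : F} (hy : IsReg T x y) (hz : IsReg T x z) : IsReg T x (y * z) := by
  rw [isReg_iff] at *
  exact ⟨T.O.mul_mem hy.1 hz.1, fun P hP => ord_mul_nonneg P (hy.2 P hP) (hz.2 P hP)⟩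

theorem IsReg.const {a : K} (ha : a ∈ T.A) : IsReg T x (algebraMap K F a) := by
  rw [isReg_iff]
  exact ⟨T.algebraMap_mem ha, fun P _ => by rw [ord_algebraMap]⟩

theorem IsReg.one : IsReg T x 1 := by
  have := IsReg.const (T := T) (x := x) T.A.one_mem
  rwa [map_one] at this

theorem IsReg.neg {y : F} (hy : IsReg T x y) : IsReg T x (-y) := by
  rw [isReg_iff] at *
  exact ⟨T.O.neg_mem hy.1, fun P hP => by rw [ord_neg]; exact hy.2 P hP⟩

theorem IsReg.sub [IsAlgClosed K] {y z : F} (hy : IsReg T x y) (hz : IsReg T x z) : IsReg T x (y - z) := by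
  rw [sub_eq_add_neg]
  exact hy.add hz.neg

theorem IsReg.prod [IsAlgClosed K] {κ : Type*} (s : Finset κ) (y : κ → F) (hy : ∀ j ∈ s, IsReg T x (y j)) :
    IsReg T x (∏ j ∈ s, y j) := by
  classical
  induction s using Finset.induction_on with
  | empty => simpa using IsReg.one
  | insert a s ha ih =>
    rw [Finset.prod_insert ha]
    exact (hy a (Finset.mem_insert_self a s)).mul (ih fun j hj => hy j (Finset.mem_insert_of_mem hj))

variable [IsAlgClosed K] [∀ i, IsFF k (Fb i)] [IsAlgClosed k] [Fintype ι]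

/-- **(R2)** the reduction of a regular function is regular outside the poles of the reduction of `x`.
(`MultiRed.red_mem_L_of_mem_L T hG.sep x hG.nonconst hG.deg a y hyL hyO j`, then `ord_nonneg_of_mem_L` : the coefficient of `a • poleDiv x̄_j` at `P`
is `a * max (-ord) 0 = 0`.) -/
theorem IsReg.ord_nonneg (hG : Good T x) {y : F} (hy : IsReg T x y) (j : ι) (P : Place k (Fb j))
    (hP : 0 ≤ P.ord ((T.R j).red x)) : 0 ≤ P.ord ((T.R j).red y) := by
  obtain ⟨hyO, a, hyL⟩ := hy
  refine ord_nonneg_of_mem_L (T.red_mem_L_of_mem_L hG.sep x hG.nonconst hG.deg a y hyL hyO j) ?_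
  rw [Finsupp.smul_apply, poleDiv_apply, max_eq_right (by omega), smul_zero]

theorem bval_add (hG : Good T x) {y z : F} (hy : IsReg T x y) (hz : IsReg T x z) (j : ι)
    (P : Place k (Fb j)) (hP : 0 ≤ P.ord ((T.R j).red x)) :
    bval T j P (y + z) = bval T j P y + bval T j P z := by
  unfold bval
  rw [(T.R j).red_add (hy.1 j) (hz.1 j), ev_add P (hy.ord_nonneg hG j P hP) (hz.ord_nonneg hG j P hP)]

theorem bval_mul (hG : Good T x) {y z : F} (hy : IsReg T x y) (hz : IsReg T x z) (j : ι)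
    (P : Place k (Fb j)) (hP : 0 ≤ P.ord ((T.R j).red x)) :
    bval T j P (y * z) = bval T j P y * bval T j P z := by
  unfold bval
  rw [(T.R j).red_mul (hy.1 j) (hz.1 j), ev_mul P (hy.ord_nonneg hG j P hP) (hz.ord_nonneg hG j P hP)]

omit [IsFF K F] [IsAlgClosed K] [Fintype ι] in
theorem bval_const (a : K) (j : ι) (P : Place k (Fb j)) :
    bval T j P (algebraMap K F a) = T.redA a := by
  unfold bval
  rw [← T.red_apply, T.red_algebraMap, ev_algebraMap]

omit [IsFF K F] [IsAlgClosed K] [Fintype ι] in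
theorem bval_one (j : ι) (P : Place k (Fb j)) : bval T j P 1 = 1 := by
  unfold bval
  rw [(T.R j).red_one, ← map_one (algebraMap k (Fb j)), ev_algebraMap]

omit [IsFF K F] [IsAlgClosed K] [Fintype ι] in
theorem bval_neg (y : F) (j : ι) (P : Place k (Fb j)) : bval T j P (-y) = -bval T j P y := by
  unfold bval
  rw [(T.R j).red_neg, ev_neg]

theorem bval_sub (hG : Good T x) {y z : F} (hy : IsReg T x y) (hz : IsReg T x z) (j : ι)
    (P : Place k (Fb j)) (hP : 0 ≤ P.ord ((T.R j).red x)) :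
    bval T j P (y - z) = bval T j P y - bval T j P z := by
  rw [sub_eq_add_neg, bval_add hG hy hz.neg j P hP, bval_neg, sub_eq_add_neg]

theorem bval_prod (hG : Good T x) {κ : Type*} (s : Finset κ) (y : κ → F)
    (hy : ∀ c ∈ s, IsReg T x (y c)) (j : ι) (P : Place k (Fb j))
    (hP : 0 ≤ P.ord ((T.R j).red x)) :
    bval T j P (∏ c ∈ s, y c) = ∏ c ∈ s, bval T j P (y c) := by
  classical
  induction s using Finset.induction_on with
  | empty => simpa using bval_one j P
  | insert a s ha ih =>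
    rw [Finset.prod_insert ha, Finset.prod_insert ha,
      bval_mul hG (hy a (Finset.mem_insert_self a s))
        (IsReg.prod s y fun c hc => hy c (Finset.mem_insert_of_mem hc)) j P hP,
      ih fun c hc => hy c (Finset.mem_insert_of_mem hc)]

/-- **(R3) Separation.**  If the point `(j₀, P₀)` is not glued to any of the points `(j b, P b)`, there is a regular function with the value `0` at `(j₀, P₀)` and
`1` at all the `(j b, P b)`.
PROOF. For each `b` choose `y_b` with values `c₀ ≠ c₁` at `(j₀, P₀)`, `(j b, P b)`.  Lift `c₀` to `a₀ ∈ A` and `(c₁ - c₀)⁻¹` to `a₁ ∈ A` (`T.redA_surj`).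
`z_b := algebraMap a₁ * (y_b - algebraMap a₀)` is regular, with values `0` and `1` (`bval_mul`, `bval_sub`, `bval_const`).
`y := 1 - ∏_b (1 - z_b)` (`bval_prod`; at `(j₀, P₀)` all the factors are `1`; at `(j b, P b)` the factor `b` is `0`: `Finset.prod_eq_zero`). -/
theorem exists_separating_reg (hG : Good T x) (j₀ : ι) (P₀ : Place k (Fb j₀))
    (hP₀ : 0 ≤ P₀.ord ((T.R j₀).red x)) {B : Type*} [Fintype B] (j : B → ι)
    (P : ∀ b, Place k (Fb (j b))) (hP : ∀ b, 0 ≤ (P b).ord ((T.R (j b)).red x))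
    (hne : ∀ b, ∃ y, IsReg T x y ∧ bval T j₀ P₀ y ≠ bval T (j b) (P b) y) :
    ∃ y, IsReg T x y ∧ bval T j₀ P₀ y = 0 ∧ ∀ b, bval T (j b) (P b) y = 1 := by
  classical
  have key : ∀ b, ∃ z, IsReg T x z ∧ bval T j₀ P₀ z = 0 ∧ bval T (j b) (P b) z = 1 := by
    intro b
    obtain ⟨y, hy, hne⟩ := hne b
    obtain ⟨a₀, ha₀, h₀⟩ := T.redA_surj (bval T j₀ P₀ y)
    obtain ⟨a₁, ha₁, h₁⟩ := T.redA_surj (bval T (j b) (P b) y - bval T j₀ P₀ y)⁻¹
    have hs : IsReg T x (y - algebraMap K F a₀) := hy.sub (IsReg.const ha₀)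
    refine ⟨algebraMap K F a₁ * (y - algebraMap K F a₀), (IsReg.const ha₁).mul hs, ?_, ?_⟩
    · rw [bval_mul hG (IsReg.const ha₁) hs j₀ P₀ hP₀, bval_sub hG hy (IsReg.const ha₀) j₀ P₀ hP₀,
        bval_const, bval_const, h₀, sub_self, mul_zero]
    · rw [bval_mul hG (IsReg.const ha₁) hs _ _ (hP b), bval_sub hG hy (IsReg.const ha₀) _ _ (hP b),
        bval_const, bval_const, h₀, h₁]
      exact inv_mul_cancel₀ (sub_ne_zero.2 hne.symm)
  choose z hz hz0 hz1 using key
  have h1 : ∀ b ∈ (Finset.univ : Finset B), IsReg T x (1 - z b) := fun b _ => IsReg.one.sub (hz b)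
  refine ⟨1 - ∏ b, (1 - z b), IsReg.one.sub (IsReg.prod _ _ h1), ?_, fun b => ?_⟩
  · rw [bval_sub hG IsReg.one (IsReg.prod _ _ h1) j₀ P₀ hP₀, bval_prod hG _ _ h1 j₀ P₀ hP₀, bval_one]
    have : ∀ b ∈ (Finset.univ : Finset B), bval T j₀ P₀ (1 - z b) = 1 := fun b _ => by
      rw [bval_sub hG IsReg.one (hz b) j₀ P₀ hP₀, bval_one, hz0, sub_zero]
    rw [Finset.prod_congr rfl this]
    simp
  · rw [bval_sub hG IsReg.one (IsReg.prod _ _ h1) _ _ (hP b), bval_prod hG _ _ h1 _ _ (hP b), bval_one,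
      Finset.prod_eq_zero (Finset.mem_univ b), sub_zero]
    rw [bval_sub hG IsReg.one (hz b) _ _ (hP b), bval_one, hz1, sub_self]

end Fermat.Agent.S33.Cover
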